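import Fermat.Agent.S18.H576.Transport
import Fermat.Agent.S18.H425.GoodModelInv
import Fermat.Agent.S37.H700.QepJ
import Fermat.Agent.S37.Red.H759.PassageDatum

/-!
# S37 board v3, leaf D3 (helper759): `LiftAtLevel` from the good models of row S18

`leaf_liftAtLevel` of `Core/Skeleton4.lean` (helper37): for an admissible coordinate `x` with
integral model `X ∈ ℤ((q))`, the good models of `Mod.GoodModelStatement` (S18 node_mod) together
with the abstract normality statement (D2) give `Red.H759.LiftAtLevel` on both charts, at every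
number field `E`.

* generic: `isIntegralElem_of_isIntegral_subring`, `exists_monic_lift_pair`;
* `Rel M A E f c` : the graph of the reduction `V_E → k((q))` of the Gauss valuation ring
  `VcSet M A E` (on helper576's `OE`, `phi`, `rho`), a subring `relRing` of `Ω × k((q))`;
* `liftAtLevel_of_goodModel` : one chart, one good model;
* `leaf_liftAtLevel'` : the leaf (hypotheses spelled out, no import of the skeleton).
-/

set_option autoImplicit false
set_option synthInstance.maxHeartbeats 400000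
set_option linter.unusedSectionVars false
set_option linter.style.haveILetI false

noncomputable section

namespace Fermat.Agent.S37.Red.H759

open ModularCurve AlgebraicCurve HahnSeries IsLocalRing Polynomial
open Fermat.Agent.S18 Fermat.Agent.S18.Mod

section Generic

/-- An element integral over a subring contained in the range of a ring hom is integral over
the ring hom. -/
theorem isIntegralElem_of_isIntegral_subring {R Ω : Type*} [CommRing R] [CommRing Ω] [Nontrivial Ω]
    (φ : R →+* Ω) (B : Subring Ω) (hB : ∀ b ∈ B, ∃ r, φ r = b) {c : Ω} (hc : IsIntegral B c) :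
    φ.IsIntegralElem c := by
  obtain ⟨p, hp, hcoef, hev⟩ := (isIntegral_subring_iff B c).1 hc
  have hlift : p ∈ Polynomial.lifts φ := by
    rw [Polynomial.lifts_iff_coeff_lifts]
    intro n
    exact hB _ (hcoef n)
  obtain ⟨q, hq, -, hqm⟩ := Polynomial.lifts_and_degree_eq_and_monic hlift hp
  exact ⟨q, hqm, by rw [← Polynomial.eval_map, hq]; exact hev⟩

/-- A polynomial with coefficients in a subring takes values in the subring at its points. -/
theorem eval_mem_of_coeff_mem {Ω : Type*} [CommRing Ω] (W : Subring Ω) (Q : Polynomial Ω)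
    (hQ : ∀ i, Q.coeff i ∈ W) {z : Ω} (hz : z ∈ W) : Q.eval z ∈ W := by
  rw [Polynomial.eval_eq_sum_range]
  exact Subring.sum_mem _ fun i _ => Subring.mul_mem _ (hQ i) (Subring.pow_mem _ hz i)

/-- Lifting of monic equations along a correspondence: `W` a subring of `Ω₁ × Ω₂` (the graph of
a reduction map), `B₀ ≤ W` a subring, `z ∈ W` with `z.2` integral over the second projection of
`B₀`.  Then there is a monic polynomial `P` over the first projection of `B₀` with
`(P(z.1), 0) ∈ W`. -/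
theorem exists_monic_lift_pair {Ω₁ Ω₂ : Type*} [CommRing Ω₁] [CommRing Ω₂] [Nontrivial Ω₂]
    (W B₀ : Subring (Ω₁ × Ω₂)) (hB : B₀ ≤ W) (z : Ω₁ × Ω₂) (hz : z ∈ W)
    (hint : IsIntegral (B₀.map (RingHom.snd Ω₁ Ω₂)) z.2) :
    ∃ P : Polynomial Ω₁, P.Monic ∧ (∀ i, P.coeff i ∈ B₀.map (RingHom.fst Ω₁ Ω₂)) ∧
      (P.eval z.1, (0 : Ω₂)) ∈ W := by
  obtain ⟨q, hqm, hq⟩ := isIntegralElem_of_isIntegral_subring
    ((RingHom.snd Ω₁ Ω₂).comp B₀.subtype) (B₀.map (RingHom.snd Ω₁ Ω₂))
    (by
      rintro b ⟨y, hy, rfl⟩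
      exact ⟨⟨y, hy⟩, rfl⟩) hint
  refine ⟨q.map ((RingHom.fst Ω₁ Ω₂).comp B₀.subtype), hqm.map _, fun i => ?_, ?_⟩
  · rw [Polynomial.coeff_map]
    exact ⟨(q.coeff i : Ω₁ × Ω₂), (q.coeff i).2, rfl⟩
  · have hmem : (q.map B₀.subtype).eval z ∈ W :=
      eval_mem_of_coeff_mem W _ (fun i => by
        rw [Polynomial.coeff_map]
        exact hB (q.coeff i).2) hz
    have h1 : ((q.map B₀.subtype).eval z).1 =
        (q.map ((RingHom.fst Ω₁ Ω₂).comp B₀.subtype)).eval z.1 := by
      rw [Polynomial.eval_map, Polynomial.eval_map]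
      exact Polynomial.hom_eval₂ q B₀.subtype (RingHom.fst Ω₁ Ω₂) z
    have h2 : ((q.map B₀.subtype).eval z).2 = 0 := by
      rw [Polynomial.eval_map]
      have := Polynomial.hom_eval₂ q B₀.subtype (RingHom.snd Ω₁ Ω₂) z
      exact this.trans hq
    rw [← h1, ← h2]
    exact hmem

end Generic

section Rel

variable {M : ℕ} {A : ValuationSubring Qb} {E : IntermediateField ℚ Qb}

/-- reduction to `k((q))` of an integral series over `A ∩ E` -/
def redk (M : ℕ) (A : ValuationSubring Qb) (E : IntermediateField ℚ Qb) :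
    H576.OE M A E →+* LaurentSeries (ResidueField A) :=
  (coeffMap (H602.resMap A E)).comp (H576.rho M A E)

theorem redk_apply (V : H576.OE M A E) :
    redk M A E V =
      coeffMap (residue A) (coeffMap (H602.toA A E) (V : LaurentSeries (H602.RE A E))) := by
  rw [H576.residue_toA_eq]
  rfl

theorem redk_eq_zero_iff (V : H576.OE M A E) : redk M A E V = 0 ↔ H576.rho M A E V = 0 := by
  constructor
  · intro h
    apply H602.coeffMap_injective (H602.resMap A E) (H602.resMap_injective A E)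
    rw [map_zero]
    exact h
  · intro h
    show coeffMap (H602.resMap A E) (H576.rho M A E V) = 0
    rw [h, map_zero]

/-- The graph of the reduction map of the Gauss valuation ring `VcSet M A E`:
`f = V₁ / V₂`, `c = V̄₁ / V̄₂` with integral series `V₁, V₂` over `A ∩ E`, `V̄₂ ≠ 0`. -/
def Rel (M : ℕ) (A : ValuationSubring Qb) (E : IntermediateField ℚ Qb) (f : Om M)
    (c : LaurentSeries (ResidueField A)) : Prop :=
  ∃ V₁ V₂ : H576.OE M A E, redk M A E V₂ ≠ 0 ∧
    f * H576.phi M A E V₂ = H576.phi M A E V₁ ∧ c * redk M A E V₂ = redk M A E V₁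

theorem Rel.of_OE (V : H576.OE M A E) : Rel M A E (H576.phi M A E V) (redk M A E V) :=
  ⟨V, 1, by rw [map_one]; exact one_ne_zero, by rw [map_one, mul_one], by rw [map_one, mul_one]⟩

theorem Rel.zero : Rel M A E 0 0 := by
  have h := Rel.of_OE (M := M) (A := A) (E := E) 0
  rwa [map_zero, map_zero] at h

theorem Rel.one : Rel M A E 1 1 := by
  have h := Rel.of_OE (M := M) (A := A) (E := E) 1
  rwa [map_one, map_one] at h

theorem Rel.add {f g : Om M} {c d : LaurentSeries (ResidueField A)} (hf : Rel M A E f c)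
    (hg : Rel M A E g d) : Rel M A E (f + g) (c + d) := by
  obtain ⟨V₁, V₂, h2, hφ, hr⟩ := hf
  obtain ⟨W₁, W₂, k2, kφ, kr⟩ := hg
  refine ⟨V₁ * W₂ + W₁ * V₂, V₂ * W₂, ?_, ?_, ?_⟩
  · rw [map_mul]
    exact mul_ne_zero h2 k2
  · rw [map_add, map_mul, map_mul, map_mul, ← hφ, ← kφ]
    ring
  · rw [map_add, map_mul, map_mul, map_mul, ← hr, ← kr]
    ring

theorem Rel.mul {f g : Om M} {c d : LaurentSeries (ResidueField A)} (hf : Rel M A E f c)
    (hg : Rel M A E g d) : Rel M A E (f * g) (c * d) := by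
  obtain ⟨V₁, V₂, h2, hφ, hr⟩ := hf
  obtain ⟨W₁, W₂, k2, kφ, kr⟩ := hg
  refine ⟨V₁ * W₁, V₂ * W₂, ?_, ?_, ?_⟩
  · rw [map_mul]
    exact mul_ne_zero h2 k2
  · rw [map_mul, map_mul, ← hφ, ← kφ]
    ring
  · rw [map_mul, map_mul, ← hr, ← kr]
    ring

theorem Rel.neg {f : Om M} {c : LaurentSeries (ResidueField A)} (hf : Rel M A E f c) :
    Rel M A E (-f) (-c) := by
  obtain ⟨V₁, V₂, h2, hφ, hr⟩ := hf
  refine ⟨-V₁, V₂, h2, ?_, ?_⟩
  · rw [map_neg, ← hφ]
    ring
  · rw [map_neg, ← hr]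
    ring

theorem Rel.sub {f g : Om M} {c d : LaurentSeries (ResidueField A)} (hf : Rel M A E f c)
    (hg : Rel M A E g d) : Rel M A E (f - g) (c - d) := by
  rw [sub_eq_add_neg, sub_eq_add_neg]
  exact hf.add hg.neg

theorem Rel.unique {f : Om M} {c c' : LaurentSeries (ResidueField A)} (h : Rel M A E f c)
    (h' : Rel M A E f c') : c = c' := by
  obtain ⟨V₁, V₂, h2, hφ, hr⟩ := h
  obtain ⟨W₁, W₂, k2, kφ, kr⟩ := h'
  have h1 : H576.phi M A E (V₁ * W₂) = H576.phi M A E (W₁ * V₂) := by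
    rw [map_mul, map_mul, ← hφ, ← kφ]
    ring
  have h3 : redk M A E V₁ * redk M A E W₂ = redk M A E W₁ * redk M A E V₂ := by
    rw [← map_mul, ← map_mul, H576.phi_injective h1]
  rw [← hr, ← kr] at h3
  have h4 : (c - c') * (redk M A E V₂ * redk M A E W₂) = 0 := by
    linear_combination h3
  rcases mul_eq_zero.1 h4 with h | h
  · exact sub_eq_zero.1 h
  · exact absurd h (mul_ne_zero h2 k2)

theorem Rel.inv {f : Om M} {c : LaurentSeries (ResidueField A)} (h : Rel M A E f c)
    (hc : c ≠ 0) : Rel M A E f⁻¹ c⁻¹ := by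
  obtain ⟨V₁, V₂, h2, hφ, hr⟩ := h
  have h1 : redk M A E V₁ ≠ 0 := by
    rw [← hr]
    exact mul_ne_zero hc h2
  have hφ1 : H576.phi M A E V₁ ≠ 0 := by
    intro h0
    apply h1
    rw [H576.phi_injective (h0.trans (map_zero _).symm), map_zero]
  have hf : f ≠ 0 := by
    rintro rfl
    rw [zero_mul] at hφ
    exact hφ1 hφ.symm
  refine ⟨V₂, V₁, h1, ?_, ?_⟩
  · rw [← hφ]
    field_simp
  · rw [← hr]
    field_simp

theorem Rel.mem_VcSet {f : Om M} {c : LaurentSeries (ResidueField A)} (h : Rel M A E f c) :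
    f ∈ VcSet M A E := by
  obtain ⟨V₁, V₂, h2, hφ, -⟩ := h
  exact H576.mem_VcSet_of_rep V₁ V₂ (fun h0 => h2 ((redk_eq_zero_iff V₂).2 h0)) hφ

theorem exists_rel_of_mem_VcSet {f : Om M} (hf : f ∈ VcSet M A E) :
    ∃ c, Rel M A E f c := by
  obtain ⟨V₁, V₂, h2, hφ⟩ := H576.exists_rep_of_mem_VcSet hf
  have h2' : redk M A E V₂ ≠ 0 := fun h0 => h2 ((redk_eq_zero_iff V₂).1 h0)
  exact ⟨redk M A E V₁ / redk M A E V₂, V₁, V₂, h2', hφ, div_mul_cancel₀ _ h2'⟩

/-- An `A`-integral series representing an element of `Fc M E` gives a point of the graph. -/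
theorem rel_of_series {f : Om M} (hf : f ∈ Fc M E) (U : LaurentSeries A)
    (hU : coeffMap A.subtype U = (f : LaurentSeries Qb)) :
    Rel M A E f (coeffMap (residue A) U) := by
  have hd := H576.descendsTo_of_mem_Fc hf
  rw [← hU] at hd
  obtain ⟨V, hV, hVU⟩ := H602.exists_series_descent U hd
  have h := Rel.of_OE (M := M) (A := A) (E := E) ⟨V, hV⟩
  have h1 : H576.phi M A E ⟨V, hV⟩ = f :=
    Subtype.ext (by rw [H576.coe_phi, H576.incQ_eq, hVU, hU])
  have h2 : redk M A E ⟨V, hV⟩ = coeffMap (residue A) U := by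
    rw [redk_apply, hVU]
  rwa [h1, h2] at h

/-- constants -/
theorem rel_const (a : A) (ha : (a : Qb) ∈ E) :
    Rel M A E (H576.iota M (a : Qb))
      (algebraMap (ResidueField A) (LaurentSeries (ResidueField A)) (residue A a)) := by
  have h := rel_of_series (M := M) (A := A) (E := E) (f := H576.iota M (a : Qb))
    (H576.Ec_le_Fc (H576.iota_mem_Ec ha)) (HahnSeries.C a)
    (by rw [H516.coeffMap_C, H576.coe_iota_single, HahnSeries.C_apply]; rfl)
  rwa [H516.coeffMap_C, HahnSeries.C_apply, ← algebraMap_laurentSeries_eq_single] at h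

/-- the generators `j(q^d)` -/
theorem rel_jd (d : ℕ) [NeZero d] (hd : d ∣ M) :
    Rel M A E (jd M d hd) (qExpand (ResidueField A) d (jqModC (ResidueField A))) := by
  have h := rel_of_series (M := M) (A := A) (E := E) (f := jd M d hd)
    (Subfield.subset_closure (Or.inr ⟨d, inferInstance, hd, rfl⟩)) (jqNModC A d)
    (by
      rw [coeffMap_jqNModC]
      exact (coeffMap_jqNModC (algebraMap ℚ Qb) d).symm)
  rwa [coeffMap_jqNModC] at h

/-- the graph, as a subring of `Ω × k((q))` -/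
def relRing (M : ℕ) (A : ValuationSubring Qb) (E : IntermediateField ℚ Qb) :
    Subring (Om M × LaurentSeries (ResidueField A)) where
  carrier := {p | Rel M A E p.1 p.2}
  mul_mem' := fun h h' => Rel.mul h h'
  one_mem' := Rel.one
  add_mem' := fun h h' => Rel.add h h'
  zero_mem' := Rel.zero
  neg_mem' := fun h => Rel.neg h

theorem mem_relRing {p : Om M × LaurentSeries (ResidueField A)} :
    p ∈ relRing M A E ↔ Rel M A E p.1 p.2 := Iff.rfl

/-- the kernel of the reduction is `w V` -/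
theorem Rel.mul_inv_mem {f : Om M} (h : Rel M A E f 0) {w : Om M} (hwm : w ∈ Rc M A E)
    (hwg : ∀ r ∈ Rc M A E, r⁻¹ ∉ Rc M A E → r * w⁻¹ ∈ Rc M A E) :
    f * w⁻¹ ∈ VcSet M A E := by
  obtain ⟨V₁, V₂, h2, hφ, hr⟩ := h
  rw [zero_mul] at hr
  have h1 : H576.rho M A E V₁ = 0 := (redk_eq_zero_iff V₁).1 hr.symm
  obtain ⟨V', hV'⟩ := H576.exists_div_of_rho_eq_zero hwm hwg V₁ h1
  refine H576.mem_VcSet_of_rep V' V₂ (fun h0 => h2 ((redk_eq_zero_iff V₂).2 h0)) ?_
  rw [hV', ← hφ]
  ring

theorem rel_zero_of_mul_inv_mem {f w : Om M} (hwm : w ∈ Rc M A E) (hw0 : w ≠ 0)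
    (hwinv : w⁻¹ ∉ Rc M A E) (h : f * w⁻¹ ∈ VcSet M A E) : Rel M A E f 0 := by
  obtain ⟨d, hd⟩ := exists_rel_of_mem_VcSet h
  obtain ⟨a, haA, haE, rfl⟩ := H576.mem_Rc_iff.mp hwm
  have hres : residue A ⟨a, haA⟩ = 0 := by
    rw [IsLocalRing.residue_eq_zero_iff, IsLocalRing.mem_maximalIdeal, mem_nonunits_iff]
    intro hu
    apply hwinv
    obtain ⟨b, hb⟩ := isUnit_iff_exists_inv.mp hu
    have hb' : a * (b : Qb) = 1 := congrArg (fun z : A => (z : Qb)) hb
    have ha0 : a ≠ 0 := by
      rintro rfl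
      rw [zero_mul] at hb'
      exact zero_ne_one hb'
    have hinv : a⁻¹ = (b : Qb) := inv_eq_of_mul_eq_one_right hb'
    rw [← map_inv₀, hinv]
    refine H576.iota_mem_Rc b.2 ?_
    rw [← hinv]
    exact E.inv_mem haE
  have hw : Rel M A E (H576.iota M a) 0 := by
    have := rel_const (M := M) (A := A) (E := E) ⟨a, haA⟩ haE
    rwa [hres, map_zero] at this
  have h3 := Rel.mul hd hw
  rwa [mul_zero, mul_assoc, inv_mul_cancel₀ hw0, mul_one] at h3

end Rel

section Main

variable {M : ℕ} [NeZero M] {ℓ : ℕ} {A : ValuationSubring Qb} {E : IntermediateField ℚ Qb}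

/-- (D2) at the field `Ω` (the body of `NormalAbsStatement` of the board): for a good model, an
element of `V` which is a root mod `w` of a monic polynomial over `R[x]` is congruent mod `w` to
an element of the chart. -/
def NormalAt (Ω : Type) [Field Ω] : Prop :=
  ∀ (Lc Ec Fc : Subfield Ω) (R V : Subring Ω) (w x : Ω) (S : Finset Ω),
    Alg.GoodModel Lc Ec Fc R V w x S →
    ∀ f ∈ V, ∀ P : Polynomial Ω, P.Monic → (∀ i, P.coeff i ∈ Alg.polyRing R x) →
      P.eval f * w⁻¹ ∈ V → ∃ b ∈ Alg.chart Fc R x, (f - b) * w⁻¹ ∈ V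

/-- `LiftAtLevel` is antitone in the number field. -/
theorem LiftAtLevel.anti {N : ℕ} {E E' : IntermediateField ℚ Qb} (hE : E ≤ E')
    {t : LaurentSeries Qb} {s : LaurentSeries (ResidueField A)}
    (h : LiftAtLevel A N E' t s) : LiftAtLevel A N E t s := by
  have hk : constk A E ⊆ constk A E' := by
    rintro c ⟨a, ha, rfl⟩
    exact ⟨a, hE ha, rfl⟩
  intro c hc hint
  exact h c (Subfield.closure_mono (Set.union_subset_union_left _ hk) hc)
    (isIntegral_subring_mono (Subring.closure_mono (Set.union_subset_union_left _ hk)) hint)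

/-- every element of `κ_E(j(q^d) : d ∣ M)` is the reduction of an element of `VcSet M A E` -/
theorem exists_rel_of_mem_closure {c : LaurentSeries (ResidueField A)}
    (hc : c ∈ Subfield.closure (constk A E ∪ divisorExpansionsC (ResidueField A) M)) :
    ∃ f, Rel M A E f c := by
  induction hc using Subfield.closure_induction with
  | mem y hy =>
    rcases hy with ⟨a, ha, rfl⟩ | ⟨d, hd, hdM, rfl⟩
    · exact ⟨_, rel_const a ha⟩
    · exact ⟨_, rel_jd d hdM⟩
  | one => exact ⟨1, Rel.one⟩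
  | add y z _ _ hy hz =>
    obtain ⟨f, hf⟩ := hy
    obtain ⟨g, hg⟩ := hz
    exact ⟨f + g, hf.add hg⟩
  | neg y _ hy =>
    obtain ⟨f, hf⟩ := hy
    exact ⟨-f, hf.neg⟩
  | inv y _ hy =>
    obtain ⟨f, hf⟩ := hy
    by_cases h0 : y = 0
    · subst h0
      rw [inv_zero]
      exact ⟨0, Rel.zero⟩
    · exact ⟨f⁻¹, hf.inv h0⟩
  | mul y z _ _ hy hz =>
    obtain ⟨f, hf⟩ := hy
    obtain ⟨g, hg⟩ := hz
    exact ⟨f * g, hf.mul hg⟩

/-- **One chart, one good model**: (H3) at level `E` from a good model over `A ∩ E` with Gauss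
valuation ring `VcSet M A E` and (D2).  `x'` is an `A`-integral series representing the
coordinate. -/
theorem liftAtLevel_of_goodModel (hℓ : ℓ.Prime) (hℓM : ¬ ℓ ∣ M) (hA : A.LiesOverPrime ℓ)
    (hnorm : NormalAt (Om M))
    {V : Subring (Om M)} {w x : Om M} {S : Finset (Om M)}
    (hV : (V : Set (Om M)) = VcSet M A E)
    (G : Alg.GoodModel (Lc M) (Ec M E) (Fc M E) (Rc M A E) V w x S)
    (x' : LaurentSeries A) (hx' : coeffMap A.subtype x' = (x : LaurentSeries Qb)) :
    LiftAtLevel A M E (x : LaurentSeries Qb) (coeffMap (residue A) x') := by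
  intro c hc hint
  have hmemV : ∀ {g : Om M}, g ∈ V ↔ g ∈ VcSet M A E := fun {g} => by
    rw [← hV]
    rfl
  have hxrel : Rel M A E x (coeffMap (residue A) x') := rel_of_series G.x_mem x' hx'
  -- Step 1: `c` is the reduction of some `f ∈ V`
  obtain ⟨f, hf⟩ : ∃ f, Rel M A E f c := exists_rel_of_mem_closure hc
  -- Step 2: lift the monic equation
  let G₀ : Set (Om M × LaurentSeries (ResidueField A)) :=
    {p | ∃ a : A, (a : Qb) ∈ E ∧ p = (H576.iota M (a : Qb),
      algebraMap (ResidueField A) (LaurentSeries (ResidueField A)) (residue A a))} ∪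
      {(x, coeffMap (residue A) x')}
  have hB₀W : Subring.closure G₀ ≤ relRing M A E := by
    rw [Subring.closure_le]
    rintro p (⟨a, ha, rfl⟩ | rfl)
    · exact rel_const a ha
    · exact hxrel
  have hsnd : Subring.closure (constk A E ∪ {coeffMap (residue A) x'}) ≤
      (Subring.closure G₀).map (RingHom.snd _ _) := by
    rw [Subring.closure_le]
    rintro y (⟨a, ha, rfl⟩ | rfl)
    · exact ⟨_, Subring.subset_closure (Or.inl ⟨a, ha, rfl⟩), rfl⟩
    · exact ⟨_, Subring.subset_closure (Or.inr rfl), rfl⟩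
  have hfst : (Subring.closure G₀).map (RingHom.fst _ _) ≤ Alg.polyRing (Rc M A E) x := by
    rw [Subring.map_le_iff_le_comap, Subring.closure_le]
    rintro p (⟨a, ha, rfl⟩ | rfl)
    · exact Subring.subset_closure (Or.inl (H576.iota_mem_Rc a.2 ha))
    · exact Subring.subset_closure (Or.inr rfl)
  obtain ⟨P, hPm, hPc, hPW⟩ := exists_monic_lift_pair (relRing M A E) (Subring.closure G₀)
    hB₀W (f, c) hf (isIntegral_subring_mono hsnd hint)
  have hPw : P.eval f * w⁻¹ ∈ V := hmemV.2 (Rel.mul_inv_mem hPW G.w_mem G.w_gen)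
  -- Step 3: normality
  obtain ⟨b, ⟨hbF, hbint⟩, hfb⟩ := hnorm _ _ _ _ _ _ _ _ G f (hmemV.2 hf.mem_VcSet) P hPm
    (fun i => hfst (hPc i)) hPw
  -- Step 4: `b` is an `A`-integral series (INT-Q)
  have hbQ : IsIntegral ((Alg.polyRing (Rc M A E) x).map (H576.valOm M)) (H576.valOm M b) :=
    isIntegral_map_subring _ _ hbint
  have hle : (Alg.polyRing (Rc M A E) x).map (H576.valOm M) ≤ (H36.phi A x').range := by
    rw [Subring.map_le_iff_le_comap]
    unfold Alg.polyRing
    rw [Subring.closure_le]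
    rintro z (hz | rfl)
    · obtain ⟨a, haA, -, rfl⟩ := H576.mem_Rc_iff.mp hz
      refine ⟨Polynomial.C ⟨a, haA⟩, ?_⟩
      rw [H36.phi_apply, H36.evHom_C, H516.coeffMap_C, HahnSeries.C_apply]
      exact (H576.coe_iota_single (M := M) a).symm
    · refine ⟨Polynomial.X, ?_⟩
      rw [H36.phi_apply, H36.evHom_X]
      exact hx'
  obtain ⟨y, hyb, -⟩ := H700.chart_intQ hℓ hℓM hA x' b.2
    (isIntegralElem_of_isIntegral_subring _ _ (fun z hz => hle hz) hbQ)
  -- Step 5: the reduction of `b` is `c`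
  have hbrel : Rel M A E b (coeffMap (residue A) y) := rel_of_series hbF y hyb
  have h0 : Rel M A E (f - b) 0 :=
    rel_zero_of_mul_inv_mem G.w_mem G.w_ne_zero G.w_inv_not_mem (hmemV.1 hfb)
  have hcy : c - coeffMap (residue A) y = 0 := (hf.sub hbrel).unique h0
  -- Step 6
  refine ⟨y, by rw [hyb]; exact b.2, ?_, (sub_eq_zero.1 hcy).symm⟩
  rw [hyb]
  refine isIntegral_subring_mono ?_ hbQ
  rw [Subring.map_le_iff_le_comap]
  unfold Alg.polyRing
  rw [Subring.closure_le]
  rintro z (hz | rfl)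
  · obtain ⟨a, haA, -, rfl⟩ := H576.mem_Rc_iff.mp hz
    exact Subring.subset_closure (Or.inl ⟨⟨a, haA⟩, rfl⟩)
  · exact Subring.subset_closure (Or.inr rfl)

/-- an integral model `X = q⁻¹ + …` is invertible in `ℤ((q))` -/
theorem exists_inv_of_model (X : LaurentSeries ℤ) (hX1 : X.coeff (-1) = 1)
    (hXlt : ∀ k : ℤ, k < -1 → X.coeff k = 0) : ∃ Y : LaurentSeries ℤ, X * Y = 1 := by
  have hX0 : X ≠ 0 := by
    rintro rfl
    rw [HahnSeries.coeff_zero] at hX1
    exact zero_ne_one hX1
  have hord : X.order = -1 := by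
    apply le_antisymm
    · exact HahnSeries.order_le_of_coeff_ne_zero (by rw [hX1]; exact one_ne_zero)
    · by_contra hlt
      push Not at hlt
      exact hX0 (HahnSeries.coeff_order_eq_zero.1 (hXlt _ hlt))
  have hu : IsUnit X := by
    rw [HahnSeries.isUnit_iff, HahnSeries.leadingCoeff_eq, hord, hX1]
    exact isUnit_one
  obtain ⟨Y, hY⟩ := isUnit_iff_exists_inv.mp hu
  exact ⟨Y, hY⟩

/-- a finite-dimensional intermediate field is contained in any intermediate field containing
a basis -/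
theorem exists_finset_le (E : NumberFieldIn) :
    ∃ T : Finset Qb, ∀ E' : IntermediateField ℚ Qb, (∀ a ∈ T, a ∈ E') → E.1 ≤ E' := by
  classical
  haveI := E.2
  let b := Module.finBasis ℚ E.1
  refine ⟨Finset.univ.image (fun i => ((b i : E.1) : Qb)), fun E' hE' e he => ?_⟩
  have h1 := b.sum_repr ⟨e, he⟩
  have h2 : e = ∑ i, (b.repr ⟨e, he⟩ i) • ((b i : E.1) : Qb) := by
    have := congrArg (fun z : E.1 => (z : Qb)) h1
    simp only [AddSubmonoidClass.coe_finsetSum, IntermediateField.coe_smul] at this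
    exact this.symm
  rw [h2]
  exact E'.sum_mem fun i _ =>
    E'.smul_mem (hE' _ (Finset.mem_image_of_mem _ (Finset.mem_univ i)))

/-- **LEAF D3** (`leaf_liftAtLevel` of the S37 board v3, hypotheses spelled out):
(H3) at every number-field level, on both charts, from the good models of row S18 (node_mod)
and (D2). -/
theorem leaf_liftAtLevel' (M ℓ : ℕ) [NeZero M] (hℓ : ℓ.Prime) (hℓM : ¬ ℓ ∣ M)
    (A : ValuationSubring Qb) (hA : A.LiesOverPrime ℓ)
    (x : Om M) (S : Finset (Om M)) (hx : Mod.IsCoordinate M ℓ x S)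
    (X : LaurentSeries ℤ) (hX1 : X.coeff (-1) = 1) (hXlt : ∀ k : ℤ, k < -1 → X.coeff k = 0)
    (hXx : (x : LaurentSeries Qb) = coeffMap (Int.castRingHom Qb) X)
    (hmod : Mod.GoodModelStatement M ℓ A)
    (hnorm : ∀ (Ω : Type) [Field Ω] (Lc Ec Fc : Subfield Ω) (R V : Subring Ω) (w x : Ω)
      (S : Finset Ω), Alg.GoodModel Lc Ec Fc R V w x S →
      ∀ f ∈ V, ∀ P : Polynomial Ω, P.Monic → (∀ i, P.coeff i ∈ Alg.polyRing R x) →
        P.eval f * w⁻¹ ∈ V → ∃ b ∈ Alg.chart Fc R x, (f - b) * w⁻¹ ∈ V)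
    (E : NumberFieldIn) :
    LiftAtLevel A M E.1 (x : LaurentSeries Qb)
        (coeffMap (Int.castRingHom (ResidueField A)) X) ∧
      LiftAtLevel A M E.1 ((x : LaurentSeries Qb))⁻¹
        (coeffMap (Int.castRingHom (ResidueField A)) X)⁻¹ := by
  classical
  obtain ⟨𝓕, -, hfam, hT⟩ := hmod x S hx
  obtain ⟨T, hTle⟩ := exists_finset_le E
  obtain ⟨E', V, w, -, hTE, hV, hmem⟩ := hT T
  have hle : E.1 ≤ E' := hTle E' hTE
  have G : Alg.GoodModel (Lc M) (Ec M E') (Fc M E') (Rc M A E') V w x S := hfam.good _ hmem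
  obtain ⟨Y, hXY⟩ := exists_inv_of_model X hX1 hXlt
  -- the series over `A`
  have hcomp : ∀ Z : LaurentSeries ℤ, coeffMap A.subtype (coeffMap (Int.castRingHom A) Z) =
      coeffMap (Int.castRingHom Qb) Z := fun Z => by
    rw [coeffMap_coeffMap]
    exact coeffMap_congr (RingHom.ext_int _ _) Z
  have hred : ∀ Z : LaurentSeries ℤ, coeffMap (residue A) (coeffMap (Int.castRingHom A) Z) =
      coeffMap (Int.castRingHom (ResidueField A)) Z := fun Z => by
    rw [coeffMap_coeffMap]
    exact coeffMap_congr (RingHom.ext_int _ _) Z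
  have hxX : coeffMap A.subtype (coeffMap (Int.castRingHom A) X) = (x : LaurentSeries Qb) := by
    rw [hcomp, hXx]
  have hinvQ : (x : LaurentSeries Qb)⁻¹ = coeffMap (Int.castRingHom Qb) Y := by
    rw [hXx]
    exact inv_eq_of_mul_eq_one_right (by rw [← map_mul, hXY, map_one])
  have hinvk : (coeffMap (Int.castRingHom (ResidueField A)) X)⁻¹ =
      coeffMap (Int.castRingHom (ResidueField A)) Y := by
    exact inv_eq_of_mul_eq_one_right (by rw [← map_mul, hXY, map_one])
  constructor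
  · have h := liftAtLevel_of_goodModel hℓ hℓM hA (hnorm (Om M)) hV G
      (coeffMap (Int.castRingHom A) X) hxX
    rw [hred] at h
    exact h.anti hle
  · have Ginv := H425.goodModel_inv G
    have hxY : coeffMap A.subtype (coeffMap (Int.castRingHom A) Y) =
        ((x⁻¹ : Om M) : LaurentSeries Qb) := by
      rw [hcomp, ← hinvQ]
      rfl
    have h := liftAtLevel_of_goodModel hℓ hℓM hA (hnorm (Om M)) hV Ginv
      (coeffMap (Int.castRingHom A) Y) hxY
    rw [hred, ← hinvk] at h
    exact h.anti hle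

end Main


end Fermat.Agent.S37.Red.H759
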