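/-
S37-RED, piece E4(c) (helper759): the strong form of (H3) at the level of a number field `E`
(series with coefficients in `A ∩ E`, lying in `E(j(q^d) : d ∣ N)`, integral over `(A ∩ E)[t]`)
implies the form `H759.LiftAtLevel` consumed by `H759.lift_of_levels`.
-/
import Mathlib
import Fermat.Agent.S37.Red.H759.Passage
import Fermat.Agent.S28.H988.Degree

set_option autoImplicit false

noncomputable section

namespace Fermat.Agent.S37.Red.H759

open ModularCurve HahnSeries IsLocalRing IntermediateField

variable (A : ValuationSubring Qbar)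

/-- `E(j(q^d) : d ∣ N) ⊆ F_N` -/
theorem subfield_closure_constE_le_bar (N : ℕ) (E : IntermediateField ℚ Qbar) :
    Subfield.closure (constE E ∪ divisorExpansionsC Qbar N) ≤
      (modularFunctionFieldBar N).toSubfield := by
  rw [Fermat.Agent.S28.H988.modularFunctionFieldBar_eq_fullC]
  exact subfield_closure_constE_le N E

theorem LiftAtLevel.of_strong {N : ℕ} {E : IntermediateField ℚ Qbar}
    {t : LaurentSeries Qbar} {s : LaurentSeries (ResidueField A)}
    (h : StrongLiftAtLevel A N E t s) : LiftAtLevel A N E t s := by
  intro c hc hint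
  obtain ⟨U, -, hU, hUint, hUc⟩ := h c hc hint
  refine ⟨U, subfield_closure_constE_le_bar N E hU, ?_, hUc⟩
  exact isIntegral_subring_mono
    (Subring.closure_mono (Set.union_subset_union_left _ (constA_subset_constAll A E))) hUint

/-- every element of `F_N` lies in `Q̄(j(q^d) : d ∣ N)` (closure form) -/
theorem mem_subfield_closure_of_mem_bar {N : ℕ} {b : LaurentSeries Qbar}
    (hb : b ∈ modularFunctionFieldBar N) :
    b ∈ Subfield.closure (Set.range (algebraMap Qbar (LaurentSeries Qbar)) ∪
      divisorExpansionsC Qbar N) := by
  rw [Fermat.Agent.S28.H988.modularFunctionFieldBar_eq_fullC] at hb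
  exact hb

end Fermat.Agent.S37.Red.H759

end
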